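/-
S55 : HILBERT 90 in the coefficient-only formalism.  `hilbert90`, `hilbert90_global`, `hilbert90_local`
are proved in `Fermat/Agent/S55/Arith/Hilbert90.lean`; the `ℚ_S` form is `hilbert90_LS` there.
-/
import Fermat.Agent.S55.Arith.Hilbert90
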